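/-
LR / node [IH-GLUE], part 1: a character `x` of `Γ₀(N)` which only depends on the upper-left entry
modulo `N` is Eisenstein: `T_l x = (l + 1) x` for every prime `l ∤ N`
(`T_l = t2c_Tadd`, the coset operator of `JT3/T2/Coset.lean`).

Proof: `c_z(γ) = α_z γ α_{z⋆γ}⁻¹` with `α_z` upper triangular, so
`a(c_z(γ)) e(z ⋆ γ) ≡ e(z) a(γ) (mod N)` where `e(z)` is the upper-left entry of `α_z`;
choosing `δ_z ∈ Γ₀(N)` with `a(δ_z) = e(z)` one gets `x(c_z γ) + x(δ_{z⋆γ}) = x(δ_z) + x(γ)`,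
and one sums over the permutation `z ↦ z ⋆ γ`.
Prefix `lrih_`.
-/
import Mathlib
import Fermat.Agent.JT3.T2.Coset
import Fermat.Agent.LR.MTX.Level

set_option autoImplicit false

noncomputable section

open CongruenceSubgroup Matrix.SpecialLinearGroup
open P2MW.S_ModularForm_heckeT_slash_eq_self_of_mem_Gamma0.ModularForm.HeckeSlashInvariance
open scoped MatrixGroups OnePoint
open Fermat.Agent.JT3

namespace Fermat.Agent.LR

variable {N : ℕ} {l : ℕ} [Fact l.Prime]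

/-- the upper-left entry of `heckeRep l z` -/
def lrih_e (l : ℕ) (z : OnePoint (ZMod l)) : ℤ := z.elim (l : ℤ) fun _ => 1

/-- the upper-right entry of `heckeRep l z` -/
def lrih_r (l : ℕ) (z : OnePoint (ZMod l)) : ℤ := z.elim 0 fun j => (j.val : ℤ)

theorem lrih_heckeRep_00 (z : OnePoint (ZMod l)) :
    ((heckeRep l z : GL (Fin 2) ℝ) : Matrix (Fin 2) (Fin 2) ℝ) 0 0 = (lrih_e l z : ℝ) := by
  have hl : l ≠ 0 := (Fact.out : l.Prime).ne_zero
  induction z using OnePoint.rec with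
  | infty => simp [lrih_e, hl]
  | coe j => simp [lrih_e, hl]

theorem lrih_heckeRep_01 (z : OnePoint (ZMod l)) :
    ((heckeRep l z : GL (Fin 2) ℝ) : Matrix (Fin 2) (Fin 2) ℝ) 0 1 = (lrih_r l z : ℝ) := by
  have hl : l ≠ 0 := (Fact.out : l.Prime).ne_zero
  induction z using OnePoint.rec with
  | infty => simp [lrih_r, hl]
  | coe j => simp [lrih_r, hl]

theorem lrih_heckeRep_10 (z : OnePoint (ZMod l)) :
    ((heckeRep l z : GL (Fin 2) ℝ) : Matrix (Fin 2) (Fin 2) ℝ) 1 0 = 0 := by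
  have hl : l ≠ 0 := (Fact.out : l.Prime).ne_zero
  induction z using OnePoint.rec with
  | infty => simp [hl]
  | coe j => simp [hl]

/-- the `(0,0)`-entry of the cocycle relation -/
theorem lrih_coc_entry (hlN : ¬ l ∣ N) (z : OnePoint (ZMod l)) (γ : Gamma0 N) :
    lrih_e l z * (γ : SL(2, ℤ)) 0 0 + lrih_r l z * (γ : SL(2, ℤ)) 1 0 =
      ((t2c_coc hlN z γ : Gamma0 N) : SL(2, ℤ)) 0 0 * lrih_e l (t2c_act (γ : SL(2, ℤ)) z) := by
  have h := t2c_coc_spec hlN z γ
  have e := congrArg (fun M : GL (Fin 2) ℝ => (M : Matrix (Fin 2) (Fin 2) ℝ) 0 0) h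
  simp only [Units.val_mul, Matrix.mul_apply, Fin.sum_univ_two, lrih_heckeRep_00,
    lrih_heckeRep_01, lrih_heckeRep_10, mapGL_apply, mul_zero, add_zero] at e
  exact_mod_cast e

/-- an element of `Γ₀(N)` with upper-left entry `l` -/
theorem lrih_exists_delta (hlN : ¬ l ∣ N) :
    ∃ δ : Gamma0 N, (δ : SL(2, ℤ)) 0 0 = (l : ℤ) := by
  have hcop : IsCoprime (l : ℤ) (N : ℤ) :=
    Nat.isCoprime_iff_coprime.mpr ((Nat.Prime.coprime_iff_not_dvd Fact.out).mpr hlN)
  obtain ⟨u, v, huv⟩ := hcop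
  refine ⟨⟨⟨!![(l : ℤ), -v; (N : ℤ), u], ?_⟩, ?_⟩, ?_⟩
  · rw [Matrix.det_fin_two_of]
    linear_combination huv
  · exact t2c_mem_of_dvd (by simp)
  · simp

/-- **Eisenstein property**: if `x γ` only depends on `a(γ) mod N`, then `T_l x = (l + 1) x`. -/
theorem lrih_hecke_of_congr (hlN : ¬ l ∣ N) {V : Type*} [AddCommGroup V]
    (x : Additive (Gamma0 N) →+ V)
    (hK : ∀ g h : Gamma0 N, (N : ℤ) ∣ (g : SL(2, ℤ)) 0 0 - (h : SL(2, ℤ)) 0 0 →
      x (Additive.ofMul g) = x (Additive.ofMul h)) :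
    t2c_Tadd hlN x = (l + 1) • x := by
  obtain ⟨δ, hδ⟩ := lrih_exists_delta (N := N) hlN
  -- the correcting elements
  set D : OnePoint (ZMod l) → Gamma0 N := fun z => z.elim δ fun _ => 1 with hD
  have hDa : ∀ z, ((D z : Gamma0 N) : SL(2, ℤ)) 0 0 = lrih_e l z := by
    intro z
    induction z using OnePoint.rec with
    | infty => simpa [hD, lrih_e] using hδ
    | coe j => simp [hD, lrih_e]
  have hdvd : ∀ g : Gamma0 N, (N : ℤ) ∣ (g : SL(2, ℤ)) 1 0 := fun g => t2c_dvd_of_mem g.2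
  refine AddMonoidHom.ext fun γ' => ?_
  obtain ⟨γ, rfl⟩ := Additive.ofMul.surjective γ'
  rw [t2c_Tadd_apply]
  -- the key relation for each `z`
  have key : ∀ z : OnePoint (ZMod l),
      x (Additive.ofMul (t2c_coc hlN z γ)) =
        x (Additive.ofMul (D z)) + x (Additive.ofMul γ) -
          x (Additive.ofMul (D (t2c_act (γ : SL(2, ℤ)) z))) := by
    intro z
    have h1 : x (Additive.ofMul (t2c_coc hlN z γ * D (t2c_act (γ : SL(2, ℤ)) z))) =
        x (Additive.ofMul (D z * γ)) := by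
      apply hK
      rw [Subgroup.coe_mul, Subgroup.coe_mul, Matrix.SpecialLinearGroup.coe_mul,
        Matrix.SpecialLinearGroup.coe_mul, Matrix.mul_apply, Matrix.mul_apply,
        Fin.sum_univ_two, Fin.sum_univ_two, hDa, hDa]
      obtain ⟨k1, hk1⟩ := hdvd (D (t2c_act (γ : SL(2, ℤ)) z))
      obtain ⟨k2, hk2⟩ := hdvd γ
      have e := lrih_coc_entry hlN z γ
      refine ⟨((t2c_coc hlN z γ : Gamma0 N) : SL(2, ℤ)) 0 1 * k1 +
        (lrih_r l z - ((D z : Gamma0 N) : SL(2, ℤ)) 0 1) * k2, ?_⟩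
      rw [hk1]
      rw [hk2] at e ⊢
      linear_combination (-1 : ℤ) * e
    rw [ofMul_mul, ofMul_mul, map_add, map_add] at h1
    rw [← h1]
    abel
  rw [Finset.sum_congr rfl fun z _ => key z, Finset.sum_sub_distrib, Finset.sum_add_distrib,
    Finset.sum_const, Finset.card_univ, lrm_card]
  have hperm : ∑ z : OnePoint (ZMod l), x (Additive.ofMul (D (t2c_act (γ : SL(2, ℤ)) z))) =
      ∑ z : OnePoint (ZMod l), x (Additive.ofMul (D z)) :=
    Equiv.sum_comp (t2c_perm (γ : SL(2, ℤ))) fun z => x (Additive.ofMul (D z))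
  rw [hperm, AddMonoidHom.smul_apply]
  abel

end Fermat.Agent.LR
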