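/-
LR / node [IH-GLUE], part 2: from the amalgam (`lrih_Amalg_stmt`, to be supplied by [AMALG]) and the
congruence subgroup property (`csp_X_stmt`, supplied by [X]) to the Eisenstein property of
`ker (i ⊗ F)`:

if `x, y : Γ₀(N) → V` kill the parabolic and elliptic elements and `A^* x + B^* y = 0` on `Γ₀(Nq)`,
then `x γ` only depends on `a(γ) mod N`, `y = -x`, and `T_l x = (l+1) x`, `T_l y = (l+1) y` for
every prime `l ∤ N`.
Prefix `lrih_`.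
-/
import Mathlib
import Fermat.Agent.LR.CSP.Seams
import Fermat.Agent.LR.MTX.Homology
import Fermat.Agent.LR.IH.Hecke

set_option autoImplicit false

noncomputable section

open CongruenceSubgroup Matrix.SpecialLinearGroup
open P2MW.S_ModularForm_heckeT_slash_eq_self_of_mem_Gamma0.ModularForm.HeckeSlashInvariance
open scoped MatrixGroups OnePoint
open Fermat.Agent.JT3

universe u

namespace Fermat.Agent.LR

/-! ### The two embeddings of `Γ₀(N)` into `Γ₀(N)[1/q] ⊆ SL₂(ℚ)` -/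

/-- an integral matrix of determinant one as an element of `CspM = SL₂(ℚ)` -/
def lrih_toCsp (γ : SL(2, ℤ)) : CspM :=
  csp_ofInt (γ 0 0) (γ 0 1) (γ 1 0) (γ 1 1) (det_eq γ)

/-- the second embedding `[[a, b], [c, d]] ↦ [[a, b / q], [q c, d]]` (conjugation by `diag(1, q)`) -/
def lrih_i2 (q : ℕ) (γ : SL(2, ℤ)) : CspM :=
  if hq : q = 0 then 1 else
  ⟨γ 0 0, γ 0 1 / q, q * γ 1 0, γ 1 1, by
    have hq' : (q : ℚ) ≠ 0 := by exact_mod_cast hq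
    have h := congrArg (Int.cast : ℤ → ℚ) (det_eq γ)
    push_cast at h
    field_simp
    linear_combination h⟩

theorem lrih_toCsp_mul (γ γ' : SL(2, ℤ)) : lrih_toCsp (γ * γ') = lrih_toCsp γ * lrih_toCsp γ' := by
  ext <;> simp [lrih_toCsp, Matrix.mul_apply, Fin.sum_univ_two]

@[simp] theorem lrih_toCsp_a (γ : SL(2, ℤ)) : (lrih_toCsp γ).a = γ 0 0 := rfl
@[simp] theorem lrih_toCsp_b (γ : SL(2, ℤ)) : (lrih_toCsp γ).b = γ 0 1 := rfl
@[simp] theorem lrih_toCsp_c (γ : SL(2, ℤ)) : (lrih_toCsp γ).c = γ 1 0 := rfl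
@[simp] theorem lrih_toCsp_d (γ : SL(2, ℤ)) : (lrih_toCsp γ).d = γ 1 1 := rfl

theorem lrih_i2_a {q : ℕ} (hq : q ≠ 0) (γ : SL(2, ℤ)) : (lrih_i2 q γ).a = γ 0 0 := by
  rw [lrih_i2, dif_neg hq]
theorem lrih_i2_b {q : ℕ} (hq : q ≠ 0) (γ : SL(2, ℤ)) : (lrih_i2 q γ).b = γ 0 1 / q := by
  rw [lrih_i2, dif_neg hq]
theorem lrih_i2_c {q : ℕ} (hq : q ≠ 0) (γ : SL(2, ℤ)) : (lrih_i2 q γ).c = q * γ 1 0 := by
  rw [lrih_i2, dif_neg hq]
theorem lrih_i2_d {q : ℕ} (hq : q ≠ 0) (γ : SL(2, ℤ)) : (lrih_i2 q γ).d = γ 1 1 := by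
  rw [lrih_i2, dif_neg hq]

theorem lrih_toCsp_mem {N : ℕ} (q : ℕ) (γ : Gamma0 N) :
    lrih_toCsp (γ : SL(2, ℤ)) ∈ csp_Gam0 q (N : ℤ) := by
  refine ⟨csp_GamA_mem_iff.2 ⟨csp_A_int q _, csp_A_int q _, csp_A_int q _, csp_A_int q _⟩, ?_⟩
  exact csp_I_of_int (t2c_dvd_of_mem γ.2)

theorem lrih_i2_mem {N : ℕ} {q : ℕ} (hq : q ≠ 0) (γ : Gamma0 N) :
    lrih_i2 q (γ : SL(2, ℤ)) ∈ csp_Gam0 q (N : ℤ) := by
  refine ⟨csp_GamA_mem_iff.2 ⟨?_, ?_, ?_, ?_⟩, ?_⟩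
  · rw [lrih_i2_a hq]; exact csp_A_int q _
  · rw [lrih_i2_b hq, div_eq_mul_inv]
    exact Subring.mul_mem _ (csp_A_int q _) (csp_A_qinv hq)
  · rw [lrih_i2_c hq]
    exact Subring.mul_mem _ (csp_A_nat q q) (csp_A_int q _)
  · rw [lrih_i2_d hq]; exact csp_A_int q _
  · rw [lrih_i2_c hq]
    exact csp_I_mul_left (csp_A_nat q q) (csp_I_of_int (t2c_dvd_of_mem γ.2))

/-! ### The amalgam seam -/

/-- **[AMALG] seam**: a pair `(x, y)` of characters of `Γ₀(N)` with `A^* x + B^* y = 0` on `Γ₀(Nq)`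
glues to a function `Φ` on `SL₂(ℚ)` which is additive on `Γ₀(N)[1/q]`, restricts to `x` along the
standard embedding and to `-y` along the embedding twisted by `diag(1, q)`. -/
def lrih_Amalg_stmt : Prop :=
  ∀ (N q : ℕ) [Fact q.Prime] (hqN : ¬ q ∣ N) {V : Type u} [AddCommGroup V]
    (x y : Additive (Gamma0 N) →+ V), lrm_resA N q x + lrm_resB hqN y = 0 →
    ∃ Φ : CspM → V,
      (∀ g h, g ∈ csp_Gam0 q (N : ℤ) → h ∈ csp_Gam0 q (N : ℤ) → Φ (g * h) = Φ g + Φ h) ∧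
      (∀ γ : Gamma0 N, Φ (lrih_toCsp (γ : SL(2, ℤ))) = x (Additive.ofMul γ)) ∧
      (∀ γ : Gamma0 N, Φ (lrih_i2 q (γ : SL(2, ℤ))) = - y (Additive.ofMul γ))

/-! ### Unipotent elements of `Γ₀(N)[1/q]` -/

/-- powers of a trace-2 matrix -/
theorem lrih_pow_unip (g : CspM) (ht : g.a + g.d = 2) (k : ℕ) :
    (g ^ k).a = 1 + k * (g.a - 1) ∧ (g ^ k).b = k * g.b ∧ (g ^ k).c = k * g.c ∧
      (g ^ k).d = 1 + k * (g.d - 1) := by
  have hdet := g.det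
  have hd : g.d = 2 - g.a := by linarith
  induction k with
  | zero => simp
  | succ k ih =>
    obtain ⟨ia, ib, ic, id⟩ := ih
    rw [pow_succ]
    refine ⟨?_, ?_, ?_, ?_⟩
    · rw [CspM.mul_a, ia, ib]; push_cast; rw [hd] at hdet; linear_combination (-(k : ℚ)) * hdet
    · rw [CspM.mul_b, ia, ib, hd]; push_cast; ring
    · rw [CspM.mul_c, ic, id, hd]; push_cast; ring
    · rw [CspM.mul_d, ic, id]; push_cast; rw [hd] at hdet ⊢; linear_combination (-(k : ℚ)) * hdet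

/-- denominators can be cleared uniformly -/
theorem lrih_clear {q : ℕ} {x : ℚ} (hx : x ∈ csp_A q) :
    ∃ n : ℕ, ∀ m : ℕ, n ≤ m → ∃ z : ℤ, (q : ℚ) ^ m * x = z := by
  obtain ⟨n, z, hz⟩ := hx
  refine ⟨n, fun m hm => ⟨z * (q : ℤ) ^ (m - n), ?_⟩⟩
  obtain ⟨k, rfl⟩ := Nat.exists_eq_add_of_le hm
  push_cast
  rw [← hz, Nat.add_sub_cancel_left]
  ring

/-- an integer in `N ℤ[1/q]` is divisible by `N` -/
theorem lrih_dvd_of_mem {q : ℕ} {N : ℤ} (hcop : IsCoprime N (q : ℤ)) {C : ℤ}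
    (hC : (C : ℚ) ∈ csp_I q N) : N ∣ C := by
  obtain ⟨y, ⟨m, z, hz⟩, hy⟩ := hC
  have h1 : C * (q : ℤ) ^ m = N * z := by
    have : ((C * (q : ℤ) ^ m : ℤ) : ℚ) = ((N * z : ℤ) : ℚ) := by
      push_cast
      rw [hy, ← hz]; ring
    exact_mod_cast this
  have h2 : N ∣ C * (q : ℤ) ^ m := ⟨z, h1⟩
  exact (hcop.pow_right (n := m)).dvd_of_dvd_mul_right h2

/-- an element of `SL₂(ℚ)` with integral entries and `N ∣ c` comes from `Γ₀(N)` -/
theorem lrih_exists_of_int {N : ℕ} (g : CspM) (A B C D : ℤ) (ha : g.a = A) (hb : g.b = B)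
    (hc : g.c = C) (hd : g.d = D) (hN : (N : ℤ) ∣ C) :
    ∃ γ : Gamma0 N, lrih_toCsp (γ : SL(2, ℤ)) = g ∧
      (γ : SL(2, ℤ)) 0 0 = A ∧ (γ : SL(2, ℤ)) 1 1 = D := by
  have hdet : A * D - B * C = 1 := by
    have := g.det
    rw [ha, hb, hc, hd] at this
    exact_mod_cast this
  refine ⟨⟨⟨!![A, B; C, D], ?_⟩, ?_⟩, ?_, ?_, ?_⟩
  · rw [Matrix.det_fin_two_of]; exact hdet
  · exact t2c_mem_of_dvd (by simpa using hN)
  · ext <;> simp [lrih_toCsp, ha, hb, hc, hd]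
  · simp
  · simp

/-! ### `Φ` kills the unipotent elements of `Γ₀(N)[1/q]` (no tree needed) -/

theorem lrih_map_pow {q : ℕ} {N : ℤ} {V : Type*} [AddCommGroup V] {Φ : CspM → V}
    (hmul : ∀ g h, g ∈ csp_Gam0 q N → h ∈ csp_Gam0 q N → Φ (g * h) = Φ g + Φ h)
    {g : CspM} (hg : g ∈ csp_Gam0 q N) (n : ℕ) : Φ (g ^ n) = n • Φ g := by
  have h1 : Φ 1 = 0 := by
    have := hmul 1 1 (one_mem _) (one_mem _)
    rw [mul_one] at this
    exact left_eq_add.mp this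
  induction n with
  | zero => simp [h1]
  | succ n ih => rw [pow_succ, hmul _ _ (pow_mem hg n) hg, ih, succ_nsmul]

/-- a character of `Γ₀(N)[1/q]` whose restriction to `Γ₀(N)` kills the parabolic elements kills every
trace-2 element: a suitable `q`-power of it is integral. -/
theorem lrih_unip {N q p : ℕ} (hq : q.Prime) (hp : p.Prime) (hqp : q ≠ p) (hqN : ¬ q ∣ N)
    {V : Type*} [AddCommGroup V] (hV : csp_PTors p V) {Φ : CspM → V}
    (hmul : ∀ g h, g ∈ csp_Gam0 q (N : ℤ) → h ∈ csp_Gam0 q (N : ℤ) → Φ (g * h) = Φ g + Φ h)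
    (x : Additive (Gamma0 N) →+ V) (hx : x ∈ gh_parEllHoms N V)
    (hΦx : ∀ γ : Gamma0 N, Φ (lrih_toCsp (γ : SL(2, ℤ))) = x (Additive.ofMul γ))
    (g : CspM) (hg : g ∈ csp_Gam0 q (N : ℤ)) (ht : g.a + g.d = 2) : Φ g = 0 := by
  have hcop : IsCoprime (N : ℤ) (q : ℤ) :=
    (Nat.isCoprime_iff_coprime.mpr ((Nat.Prime.coprime_iff_not_dvd hq).mpr hqN)).symm
  obtain ⟨hA, hcI⟩ := hg
  obtain ⟨ha, hb, hc, hd⟩ := csp_GamA_mem_iff.1 hA
  obtain ⟨n1, h1⟩ := lrih_clear ha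
  obtain ⟨n2, h2⟩ := lrih_clear hb
  obtain ⟨n3, h3⟩ := lrih_clear hc
  obtain ⟨n4, h4⟩ := lrih_clear hd
  set n := n1 + n2 + n3 + n4 with hn
  obtain ⟨za, hza⟩ := h1 n (by omega)
  obtain ⟨zb, hzb⟩ := h2 n (by omega)
  obtain ⟨zc, hzc⟩ := h3 n (by omega)
  obtain ⟨zd, hzd⟩ := h4 n (by omega)
  obtain ⟨pa, pb, pc, pd⟩ := lrih_pow_unip g ht (q ^ n)
  have hNc : (N : ℤ) ∣ zc := by
    apply lrih_dvd_of_mem hcop
    rw [← hzc]
    exact csp_I_mul_left (Subring.pow_mem _ (csp_A_nat q q) n) hcI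
  obtain ⟨γ, hγ, hγa, hγd⟩ := lrih_exists_of_int (N := N) (g ^ (q ^ n))
    (1 + za - (q : ℤ) ^ n) zb zc (1 + zd - (q : ℤ) ^ n)
    (by rw [pa]; push_cast; rw [← hza]; ring) (by rw [pb]; push_cast; rw [← hzb])
    (by rw [pc]; push_cast; rw [← hzc]) (by rw [pd]; push_cast; rw [← hzd]; ring) hNc
  have hpar : gh_IsParEll N γ := by
    have htr : ((γ : SL(2, ℤ)) : Matrix (Fin 2) (Fin 2) ℤ).trace = 2 := by
      rw [Matrix.trace_fin_two]
      have e1 : ((γ : SL(2, ℤ)) : Matrix (Fin 2) (Fin 2) ℤ) 0 0 = 1 + za - (q : ℤ) ^ n := hγa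
      have e2 : ((γ : SL(2, ℤ)) : Matrix (Fin 2) (Fin 2) ℤ) 1 1 = 1 + zd - (q : ℤ) ^ n := hγd
      rw [e1, e2]
      have : ((za + zd : ℤ) : ℚ) = ((2 * (q : ℤ) ^ n : ℤ) : ℚ) := by
        push_cast
        rw [← hza, ← hzd, ← mul_add, ht]; ring
      have : za + zd = 2 * (q : ℤ) ^ n := by exact_mod_cast this
      linarith
    rw [gh_IsParEll, htr]; norm_num
  have h0 : Φ (g ^ (q ^ n)) = 0 := by rw [← hγ, hΦx, hx γ hpar]
  rw [lrih_map_pow hmul ⟨hA, hcI⟩] at h0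
  exact hV (q ^ n) (Φ g) (Nat.Coprime.pow_left n ((Nat.coprime_primes hq hp).mpr hqp)) h0

/-! ### Level one -/

/-- a character of `SL₂(ℤ) = Γ₀(1)` killing the parabolic and the elliptic elements vanishes -/
theorem lrih_level_one {V : Type*} [AddCommGroup V] (x : Additive (Gamma0 1) →+ V)
    (hx : x ∈ gh_parEllHoms 1 V) : x = 0 := by
  have hmem : ∀ γ : SL(2, ℤ), γ ∈ Gamma0 1 := fun γ => by
    rw [Gamma0_mem]; exact Subsingleton.elim _ _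
  have key : ∀ γ : SL(2, ℤ), γ ∈ Subgroup.closure {ModularGroup.S, ModularGroup.T} →
      x (Additive.ofMul ⟨γ, hmem γ⟩) = 0 := by
    intro γ hγ
    induction hγ using Subgroup.closure_induction with
    | mem g hg =>
      apply hx
      rcases hg with rfl | rfl
      · rw [gh_IsParEll, Matrix.trace_fin_two]
        simp [ModularGroup.S]
      · rw [gh_IsParEll, Matrix.trace_fin_two]
        simp [ModularGroup.T]
    | one => exact map_zero x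
    | mul g h _ _ ig ih =>
      have : (⟨g * h, hmem _⟩ : Gamma0 1) = ⟨g, hmem g⟩ * ⟨h, hmem h⟩ := rfl
      rw [this, ofMul_mul, map_add, ig, ih, add_zero]
    | inv g _ ig =>
      have : (⟨g⁻¹, hmem _⟩ : Gamma0 1) = (⟨g, hmem g⟩ : Gamma0 1)⁻¹ := rfl
      rw [this, ofMul_inv, map_neg, ig, neg_zero]
  refine AddMonoidHom.ext fun γ' => ?_
  obtain ⟨γ, rfl⟩ := Additive.ofMul.surjective γ'
  have h := key (γ : SL(2, ℤ)) (by rw [SpecialLinearGroup.SL2Z_generators]; trivial)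
  exact h

/-! ### The main theorems -/

/-- **Congruence property of the kernel of `i`**: for `(x, y)` with `A^* x + B^* y = 0`, `x γ` only
depends on `a(γ) mod N`, and `y = -x`. -/
theorem lrih_congr (hA : lrih_Amalg_stmt.{u}) (hX : csp_X_stmt.{u}) {N q p : ℕ} [Fact q.Prime]
    (hN : 1 < N) (hqN : ¬ q ∣ N) (hp : p.Prime) (hp2 : p ≠ 2) (hqp : q ≠ p)
    {V : Type u} [AddCommGroup V] (hV : csp_PTors p V)
    (x y : Additive (Gamma0 N) →+ V) (hx : x ∈ gh_parEllHoms N V)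
    (hxy : lrm_resA N q x + lrm_resB hqN y = 0) :
    (∀ g h : Gamma0 N, (N : ℤ) ∣ (g : SL(2, ℤ)) 0 0 - (h : SL(2, ℤ)) 0 0 →
      x (Additive.ofMul g) = x (Additive.ofMul h)) ∧ y = -x := by
  have hq : q.Prime := Fact.out
  have hcop : IsCoprime (N : ℤ) (q : ℤ) :=
    (Nat.isCoprime_iff_coprime.mpr ((Nat.Prime.coprime_iff_not_dvd hq).mpr hqN)).symm
  obtain ⟨Φ, hmul, hΦx, hΦy⟩ := hA N q hqN x y hxy
  have hun : ∀ g, g ∈ csp_Gam0 q (N : ℤ) → g.a + g.d = 2 → Φ g = 0 :=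
    fun g hg ht => lrih_unip hq hp hqp hqN hV hmul x hx hΦx g hg ht
  have hXΦ := hX q p (N : ℤ) hq hp hp2 (by exact_mod_cast hN) hcop hV Φ hmul hun
  refine ⟨fun g h hdvd => ?_, ?_⟩
  · rw [← hΦx g, ← hΦx h]
    refine hXΦ _ _ (lrih_toCsp_mem q g) (lrih_toCsp_mem q h) ?_
    rw [lrih_toCsp_a, lrih_toCsp_a, ← Int.cast_sub]
    exact csp_I_of_int hdvd
  · refine AddMonoidHom.ext fun γ' => ?_
    obtain ⟨γ, rfl⟩ := Additive.ofMul.surjective γ'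
    have h1 : Φ (lrih_i2 q (γ : SL(2, ℤ))) = Φ (lrih_toCsp (γ : SL(2, ℤ))) := by
      refine hXΦ _ _ (lrih_i2_mem hq.ne_zero γ) (lrih_toCsp_mem q γ) ?_
      rw [lrih_toCsp_a, lrih_i2_a hq.ne_zero, sub_self]
      exact zero_mem _
    rw [hΦy, hΦx] at h1
    rw [AddMonoidHom.neg_apply, ← h1, neg_neg]

/-- **Ihara's lemma, Eisenstein form**: for `(x, y)` in the kernel of `i = (A^*, B^*)` (characters
of `Γ₀(N)` killing the parabolic and elliptic elements, with values in a group without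
prime-to-`p` torsion, `p` odd, `q ≠ p`), `T_l x = (l+1) x` and `T_l y = (l+1) y` for every prime
`l ∤ N`. -/
theorem lrih_eisenstein (hA : lrih_Amalg_stmt.{u}) (hX : csp_X_stmt.{u}) {N q p : ℕ} [Fact q.Prime]
    (hN : 0 < N) (hqN : ¬ q ∣ N) (hp : p.Prime) (hp2 : p ≠ 2) (hqp : q ≠ p)
    {V : Type u} [AddCommGroup V] (hV : csp_PTors p V)
    (x y : Additive (Gamma0 N) →+ V) (hx : x ∈ gh_parEllHoms N V) (hy : y ∈ gh_parEllHoms N V)
    (hxy : lrm_resA N q x + lrm_resB hqN y = 0)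
    (l : ℕ) [Fact l.Prime] (hlN : ¬ l ∣ N) :
    t2c_Tadd hlN x = (l + 1) • x ∧ t2c_Tadd hlN y = (l + 1) • y := by
  rcases Nat.lt_or_ge 1 N with h1 | h1
  · obtain ⟨hK, hyx⟩ := lrih_congr hA hX h1 hqN hp hp2 hqp hV x y hx hxy
    have e := lrih_hecke_of_congr hlN x hK
    refine ⟨e, ?_⟩
    rw [hyx, map_neg, e, smul_neg]
  · have : N = 1 := by omega
    subst this
    rw [lrih_level_one x hx, lrih_level_one y hy]
    simp

/-- the same in the language of `H(N) = Γ₀(N)^ab / (par, ell)`: the kernel of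
`lrh_i : Hom(H(N), V)² → Hom(H(Nq), V)` is Eisenstein. -/
theorem lrih_eisenstein_H (hA : lrih_Amalg_stmt.{u}) (hX : csp_X_stmt.{u}) {N q p : ℕ}
    [Fact q.Prime] (hN : 0 < N) (hqN : ¬ q ∣ N) (hp : p.Prime) (hp2 : p ≠ 2) (hqp : q ≠ p)
    {V : Type u} [AddCommGroup V] (hV : csp_PTors p V)
    (ψ : (gh_H N →+ V) × (gh_H N →+ V)) (hψ : lrh_i hqN V ψ = 0)
    (l : ℕ) [Fact l.Prime] (hlN : ¬ l ∣ N) :
    ψ.1.comp (t2e_TH hlN) = (l + 1) • ψ.1 ∧ ψ.2.comp (t2e_TH hlN) = (l + 1) • ψ.2 := by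
  have hxy : lrm_resA N q (ψ.1.comp (gh_mk N)) + lrm_resB hqN (ψ.2.comp (gh_mk N)) = 0 := by
    rw [← lrh_pull_A, ← lrh_pull_B, ← AddMonoidHom.add_comp]
    have : ψ.1.comp (lrh_A N q) + ψ.2.comp (lrh_B hqN) = 0 := hψ
    rw [this, AddMonoidHom.zero_comp]
  obtain ⟨e1, e2⟩ := lrih_eisenstein hA hX hN hqN hp hp2 hqp hV _ _
    (gh_comp_mk_parEll ψ.1) (gh_comp_mk_parEll ψ.2) hxy l hlN
  constructor
  · apply lrh_comp_mk_injective
    rw [t2e_comp_TH, e1]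
    rfl
  · apply lrh_comp_mk_injective
    rw [t2e_comp_TH, e2]
    rfl

end Fermat.Agent.LR
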