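/-
LR / node [IH-GLUE], part 3: Ihara's lemma as a CLOSED theorem.

* `lrih_ihara` : the kernel of `lrh_i : Hom(H(N), V)² → Hom(H(Nq), V)` (`V` without prime-to-`p`
  torsion, `p` odd, `q ≠ p`) is killed by `T_l - (l + 1)` for every prime `l ∤ N`
  (= `lrih_eisenstein_H` with [AMALG] `lra_amalg_stmt` and [X] `csp_x_closed` plugged in);
* `lrih_ker_eq_zero` : **the hypothesis (IHARA) of `lrrb_main`** for the maximal ideal of an elliptic
  curve with irreducible `E[p]`: an element `ψ` of the kernel of `lrh_i` over `ZMod p` which is an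
  eigenvector of `T_l` with eigenvalue `a_l(W)` for all good primes `l ∤ N`, `l ∉ S`, `l ≠ p`
  vanishes (helper22's `lrv_nonEis_model`).
Prefix `lrih_`.
-/
import Mathlib
import Fermat.Agent.LR.IH.Glue
import Fermat.Agent.LR.AMALG.Adapt
import Fermat.Agent.LR.CSP.FinalClosed
import Fermat.Agent.LR.NonEis.Final

set_option autoImplicit false

noncomputable section

open CongruenceSubgroup Matrix.SpecialLinearGroup
open scoped MatrixGroups OnePoint
open Fermat.Agent.JT3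
open WeierstrassCurve WeierstrassCurve.Affine.Point

universe u

namespace Fermat.Agent.LR

/-- **Ihara's lemma (Eisenstein form), closed.** -/
theorem lrih_ihara {N q p : ℕ} [Fact q.Prime] (hN : 0 < N) (hqN : ¬ q ∣ N) (hp : p.Prime)
    (hp2 : p ≠ 2) (hqp : q ≠ p) {V : Type u} [AddCommGroup V] (hV : csp_PTors p V)
    (ψ : (gh_H N →+ V) × (gh_H N →+ V)) (hψ : lrh_i hqN V ψ = 0)
    (l : ℕ) [Fact l.Prime] (hlN : ¬ l ∣ N) :
    ψ.1.comp (t2e_TH hlN) = (l + 1) • ψ.1 ∧ ψ.2.comp (t2e_TH hlN) = (l + 1) • ψ.2 :=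
  lrih_eisenstein_H lra_amalg_stmt.{u} csp_x_closed.{u} hN hqN hp hp2 hqp hV ψ hψ l hlN

/-- `ZMod p` has no prime-to-`p` torsion. -/
theorem lrih_pTors_zmod {p : ℕ} (hp : p.Prime) : csp_PTors p (ZMod p) := by
  intro n v hn hv
  have : Fact p.Prime := ⟨hp⟩
  rw [nsmul_eq_mul] at hv
  rcases mul_eq_zero.mp hv with h | h
  · exfalso
    rw [ZMod.natCast_eq_zero_iff] at h
    have := Nat.Coprime.eq_one_of_dvd hn.symm h
    exact hp.one_lt.ne' this
  · exact h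

/-- **(IHARA) for a non-Eisenstein eigensystem.**  Let `E / ℚ` be an elliptic curve with irreducible
`E[p]`, `p` odd, `W` an integral model.  If `ψ = (ψ₁, ψ₂) ∈ Hom(H(N), 𝔽_p)²` lies in the kernel of
`lrh_i` and `T_l ψ_i = a_l(W) ψ_i` for every good prime `l ∤ N`, `l ∉ S`, `l ≠ p`, then `ψ = 0`. -/
theorem lrih_ker_eq_zero (E : WeierstrassCurve ℚ) [E.IsElliptic] {W : WeierstrassCurve ℤ}
    (hW : W.IsIntegralModelOf E) {p N q : ℕ} [Fact q.Prime] (hp : p.Prime) (hp2 : p ≠ 2)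
    (hN : 0 < N) (hqN : ¬ q ∣ N) (hqp : q ≠ p)
    (hirr : GaloisRepIsIrreducible (K := AlgebraicClosure ℚ) ℚ E p) (S : Finset ℕ)
    (ψ : (gh_H N →+ ZMod p) × (gh_H N →+ ZMod p)) (hψ : lrh_i hqN (ZMod p) ψ = 0)
    (heig : ∀ (l : ℕ) [Fact l.Prime] (hlN : ¬ l ∣ N), W.IsGoodPrimeFor l → l ∉ S → l ≠ p →
      ∀ x : gh_H N, ψ.1 (t2e_TH hlN x) = ((W.apOfModel l : ℤ) : ZMod p) * ψ.1 x ∧
        ψ.2 (t2e_TH hlN x) = ((W.apOfModel l : ℤ) : ZMod p) * ψ.2 x) :
    ψ = 0 := by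
  have : Fact p.Prime := ⟨hp⟩
  obtain ⟨l, hl, hgood, hlS, hlp, hnd⟩ :=
    lrv_nonEis_model E hW hp hp2 hirr (S ∪ N.primeFactors)
  have : Fact l.Prime := ⟨hl⟩
  have hlS' : l ∉ S := fun h => hlS (Finset.mem_union_left _ h)
  have hlN : ¬ l ∣ N := fun h =>
    hlS (Finset.mem_union_right _ (Nat.mem_primeFactors.mpr ⟨hl, h, hN.ne'⟩))
  obtain ⟨e1, e2⟩ := lrih_ihara hN hqN hp hp2 hqp (lrih_pTors_zmod hp) ψ hψ l hlN
  have hunit : (((l : ℤ) + 1 - W.apOfModel l : ℤ) : ZMod p) ≠ 0 := by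
    rw [Ne, ZMod.intCast_zmod_eq_zero_iff_dvd]
    exact hnd
  have key : ∀ χ : gh_H N →+ ZMod p, χ.comp (t2e_TH hlN) = (l + 1) • χ →
      (∀ x, χ (t2e_TH hlN x) = ((W.apOfModel l : ℤ) : ZMod p) * χ x) → χ = 0 := by
    intro χ h1 h2
    refine AddMonoidHom.ext fun x => ?_
    have h3 := DFunLike.congr_fun h1 x
    rw [AddMonoidHom.comp_apply, h2 x, AddMonoidHom.smul_apply, nsmul_eq_mul] at h3
    have h4 : (((l : ℤ) + 1 - W.apOfModel l : ℤ) : ZMod p) * χ x = 0 := by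
      push_cast
      push_cast at h3
      linear_combination -h3
    rcases mul_eq_zero.mp h4 with h | h
    · exact absurd h hunit
    · simpa using h
  have h := heig l hlN hgood hlS' hlp
  refine Prod.ext ?_ ?_
  · exact key ψ.1 e1 fun x => (h x).1
  · exact key ψ.2 e2 fun x => (h x).2

end Fermat.Agent.LR
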